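import Fermat.Agent.SimpleZeros.Phase
import Fermat.Agent.LevinsonThird.Count
import Fermat.Agent.Levinson.DerivZeta

/-!
# More than one third of the zeros are simple and on the line

The bound for the zeros of `G` leaves more than a third of all zeros to the simple zeros on the
line; it also bounds the zeros of `ζ'` left of the line by less than a third of the zeros of `ζ`.
-/

set_option autoImplicit false

noncomputable section

namespace FA.SimpleZeros

open Complex Filter Set
open FA.RiemannMangoldt (zeroCount zetaZeros finite_zetaZeros mainTerm exists_count)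
open FA.Levinson (lvCount derivZetaLeftCount lvCount_eq)
open FA.LevinsonThird (levR levMean levRate log_levMean_lt exists_lvCount_le)
open scoped Real

theorem eventually_ell_le : ∀ᶠ T : ℝ in atTop, FA.ZeroFree.ell T ≤ 7 * T := by
  filter_upwards [eventually_ge_atTop (20 : ℝ)] with T hT
  have h : FA.ZeroFree.ell T ≤ |T| + 100 := Real.log_le_self (by positivity)
  rw [abs_of_nonneg (by linarith)] at h
  linarith

/-- **The margin**: twice the zeros of `G`, and any `O (log T)`, leave a fixed proportion above one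
third. -/
theorem exists_margin : ∃ κ : ℝ, 1 / 3 < κ ∧ κ ≤ 2 / 3 ∧ ∀ C : ℝ, 0 ≤ C →
    ∀ᶠ T : ℝ in atTop, 2 * (lvCount T : ℝ) + C * FA.ZeroFree.ell T + T <
      (1 - κ) * zeroCount T := by
  obtain ⟨A, hA, hG⟩ := exists_lvCount_le
  obtain ⟨B, hB, hN⟩ := exists_count
  have hR : levR = 13 / 10 := rfl
  have hm0 : 0 ≤ Real.log levMean := Real.log_nonneg (by rw [levMean]; norm_num)
  obtain ⟨d, hd⟩ : ∃ d, d = 2 / 3 - Real.log levMean / levR := ⟨_, rfl⟩
  have hd0 : 0 < d ∧ d ≤ 2 / 3 := by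
    rw [hd]
    refine ⟨?_, by linarith [div_nonneg hm0 (show 0 ≤ levR by rw [hR]; norm_num)]⟩
    rw [sub_pos, div_lt_iff₀ (by rw [hR]; norm_num)]
    exact log_levMean_lt
  refine ⟨1 / 3 + d / 2, by linarith [hd0.1], by linarith [hd0.2], fun C hC => ?_⟩
  obtain ⟨J, hJ⟩ : ∃ J : ℝ, J = 2 + 2 * A + 7 * B + 7 * C + 10 := ⟨_, rfl⟩
  filter_upwards [eventually_ell_le, eventually_ge_atTop (10 : ℝ),
    Real.tendsto_log_atTop.eventually_ge_atTop (4 * π * J / d + 1)] with T hell hT hL
  have hg := hG T (by linarith)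
  have hn := (abs_le.1 (hN T (by linarith))).1
  obtain ⟨l, hl⟩ : ∃ l, l = Real.log T := ⟨_, rfl⟩
  rw [← hl] at hg hL
  have hπ := Real.pi_gt_three
  have hmain : T * l / (2 * π) - T ≤ mainTerm T := by
    have hl2 : Real.log (2 * π) ≤ 2 := by
      rw [Real.log_le_iff_le_exp (by positivity), show (2 : ℝ) = 1 + 1 by norm_num, Real.exp_add]
      nlinarith [Real.exp_one_gt_d9, Real.pi_lt_d2]
    rw [mainTerm, Real.log_div (by linarith) (by positivity), ← hl]
    have h1 : T / (2 * π) * (Real.log (2 * π) + 1) ≤ T := by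
      rw [div_mul_eq_mul_div, div_le_iff₀ (by positivity)]
      exact mul_le_mul_of_nonneg_left (by linarith) (by linarith)
    rw [show T * l / (2 * π) = T / (2 * π) * l by ring]
    linarith
  have h1 : (1 - (1 / 3 + d / 2)) * (T * l / (2 * π) - T - 7 * B * T) ≤
      (1 - (1 / 3 + d / 2)) * zeroCount T :=
    mul_le_mul_of_nonneg_left (by nlinarith [mul_le_mul_of_nonneg_left hell hB])
      (by linarith [hd0.2])
  have h2 : C * FA.ZeroFree.ell T ≤ 7 * C * T :=
    (mul_le_mul_of_nonneg_left hell hC).trans (le_of_eq (by ring))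
  have h3 : (1 - (1 / 3 + d / 2)) * (T * l / (2 * π)) - 2 * (levRate * T * l) =
      d / (4 * π) * (T * l) := by
    rw [hd, levRate, hR]
    field_simp
    ring
  have hd4 : 0 < d / (4 * π) := div_pos hd0.1 (by positivity)
  have h4 : (J + d / (4 * π)) * T ≤ d / (4 * π) * (T * l) := by
    have h6 := mul_le_mul_of_nonneg_left hL hd4.le
    have := hd0.1
    rw [mul_add, mul_one, show d / (4 * π) * (4 * π * J / d) = J by field_simp] at h6
    exact (mul_le_mul_of_nonneg_right h6 (by linarith)).trans (le_of_eq (by ring))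
  have h5 : (1 - (1 / 3 + d / 2)) * (T + 7 * B * T) ≤ T + 7 * B * T :=
    mul_le_of_le_one_left (by positivity) (by linarith [hd0.1])
  have h6 : 0 < d / (4 * π) * T := mul_pos hd4 (by linarith)
  rw [hJ] at h4
  linarith

theorem analyticOrderNatAt_eq_one {t : ℝ} (hz : riemannZeta (1 / 2 + t * I) = 0)
    (hd : deriv riemannZeta (1 / 2 + t * I) ≠ 0) :
    analyticOrderNatAt riemannZeta (1 / 2 + t * I) = 1 := by
  have h1 : (1 / 2 + t * I : ℂ) ≠ 1 := fun h => by
    have := congrArg Complex.re h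
    simp at this
  have h := (FA.Levinson.analyticAt_zeta h1).analyticOrderAt_sub_eq_one_of_deriv_ne_zero hd
  simp only [hz, sub_zero] at h
  rw [analyticOrderNatAt, h]
  rfl

theorem ncard_simple_le (T : ℝ) : (simpleLineZeros T).ncard ≤
    {ρ : ℂ | ρ ∈ zetaZeros T ∧ analyticOrderNatAt riemannZeta ρ = 1}.ncard := by
  refine Set.ncard_le_ncard_of_injOn (fun t : ℝ => (1 / 2 + t * I : ℂ)) (fun t ht => ?_)
    (fun x _ y _ h => by simpa using congrArg Complex.im h)
    ((finite_zetaZeros T).subset fun ρ h => h.1)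
  obtain ⟨h1, h2, h3, h4⟩ := ht
  exact ⟨⟨h3, by simp, by norm_num, by simpa using h1, by simpa using h2⟩,
    analyticOrderNatAt_eq_one h3 h4⟩

/-- **More than one third are simple and on the line.** -/
theorem exists_simple_proportion : ∃ κ : ℝ, 1 / 3 < κ ∧ ∀ᶠ T : ℝ in atTop,
    κ * zeroCount T + T < ((simpleLineZeros T).ncard : ℝ) := by
  obtain ⟨κ, hκ, -, hm⟩ := exists_margin
  obtain ⟨C, hC, hs⟩ := exists_simple_count
  refine ⟨κ, hκ, ?_⟩
  filter_upwards [hm C hC, eventually_ge_atTop (3 : ℝ)] with T h hT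
  linarith [hs T hT]

/-- **Zeros of `ζ'` left of the line.** -/
theorem exists_derivZetaLeft_proportion : ∃ δ : ℝ, δ < 1 / 3 ∧ ∀ᶠ T : ℝ in atTop,
    (derivZetaLeftCount T : ℝ) ≤ δ * zeroCount T := by
  obtain ⟨κ, hκ, -, hm⟩ := exists_margin
  refine ⟨(1 - κ) / 2, by linarith, ?_⟩
  filter_upwards [hm 0 le_rfl, eventually_ge_atTop (0 : ℝ)] with T h hT
  rw [← lvCount_eq]
  linarith

/-- **Infinitely many simple zeros on the line.** -/
theorem infinite_simple :
    {t : ℝ | riemannZeta (1 / 2 + t * I) = 0 ∧ deriv riemannZeta (1 / 2 + t * I) ≠ 0}.Infinite := by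
  intro hfin
  obtain ⟨κ, hκ, h⟩ := exists_simple_proportion
  obtain ⟨T, h1, hT⟩ := (h.and (eventually_ge_atTop (({t : ℝ | riemannZeta (1 / 2 + t * I) = 0 ∧
    deriv riemannZeta (1 / 2 + t * I) ≠ 0}.ncard : ℕ) : ℝ))).exists
  have h2 : ((simpleLineZeros T).ncard : ℝ) ≤ T :=
    le_trans (Nat.cast_le.2 (Set.ncard_le_ncard (show simpleLineZeros T ⊆ {t : ℝ |
      riemannZeta (1 / 2 + t * I) = 0 ∧ deriv riemannZeta (1 / 2 + t * I) ≠ 0}
      from fun t ht => ⟨ht.2.2.1, ht.2.2.2⟩) hfin)) hT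
  nlinarith [(zeroCount T).cast_nonneg (α := ℝ)]

end FA.SimpleZeros

end
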